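import Fermat.Agent.Kloosterman.LFunction
import Fermat.Agent.HyperellipticWeil.Main

/-!
# Weil's bound for Kloosterman sums

Over an extension `K` the sum over `t ≠ 0` of the sums for `(t a, t b)` counts the points of
`z ^ p - z = a x + b / x`, that is of `y ^ 2 = (z ^ p - z) ^ 2 - 4 a b`; so it is
`O (p ^ (n / 2))`, and every reciprocal root has absolute value `≤ √p`.
-/

set_option autoImplicit false
set_option linter.unusedSectionVars false

noncomputable section

namespace FA.Kloosterman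

open Polynomial Finset FA.HyperellipticWeil

variable {p : ℕ} [Fact p.Prime]

theorem exists_roots {a b : ZMod p} (ha : a ≠ 0) (hb : b ≠ 0) :
    ∃ r : ℂ × ℂ, r.1 * r.2 = (p : ℂ) ∧ r.1 + r.2 = -coeffSum (kl a b) 1 ∧
      ∀ n : ℕ, 1 ≤ n → mulPowSum (kl a b) n = -(r.1 ^ n + r.2 ^ n) := by
  obtain ⟨s, hs⟩ := IsAlgClosed.exists_eq_mul_self (coeffSum (kl a b) 1 ^ 2 - 4 * (p : ℂ))
  obtain ⟨α, hα⟩ : ∃ α, α = (-coeffSum (kl a b) 1 + s) / 2 := ⟨_, rfl⟩
  obtain ⟨β, hβ⟩ : ∃ β, β = (-coeffSum (kl a b) 1 - s) / 2 := ⟨_, rfl⟩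
  have hsum : α + β = -coeffSum (kl a b) 1 := by rw [hα, hβ]; ring
  have hprod : α * β = (p : ℂ) := by rw [hα, hβ]; linear_combination (1 / 4 : ℂ) * hs
  have hN := newton_mult (kl a b) (kl_one a b) (kl_mul a b)
  refine ⟨(α, β), hprod, hsum, fun n => ?_⟩
  induction n using Nat.strong_induction_on with
  | _ n ih =>
    intro hn
    obtain ⟨k, rfl⟩ := Nat.exists_eq_add_of_le' hn
    rcases k with _ | _ | k
    · have h := hN 1
      rw [Icc_self, sum_singleton, Nat.sub_self, coeffSum_zero, Nat.cast_one, one_mul,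
        mul_one] at h
      simp only [zero_add, pow_one]
      linear_combination -h + hsum
    · have h := hN 2
      rw [show Icc 1 2 = ({1, 2} : Finset ℕ) by decide, sum_pair (by norm_num), coeffSum_zero,
        coeffSum_two ha hb] at h
      have h1 := ih 1 (by norm_num) le_rfl
      simp only [pow_one] at h1
      norm_num at h ⊢
      linear_combination -h - coeffSum (kl a b) 1 * h1 + (α + β) * hsum - 2 * hprod
    · have h := hN (k + 3)
      rw [coeffSum_of_three_le ha b (show 3 ≤ k + 3 by omega), mul_zero,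
        ← sum_subset (s₁ := {k + 1, k + 2, k + 3}) (by
          intro x hx
          simp only [mem_insert, mem_singleton] at hx
          rw [mem_Icc]
          omega) (fun x hx hx' => by
          simp only [mem_insert, mem_singleton] at hx'
          rw [mem_Icc] at hx
          rw [coeffSum_of_three_le ha b (by omega), mul_zero]),
        sum_insert (by simp), sum_pair (by omega), show k + 3 - (k + 1) = 2 by omega,
        show k + 3 - (k + 2) = 1 by omega, Nat.sub_self, coeffSum_zero, coeffSum_two ha hb,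
        ih (k + 1) (by omega) (by omega), ih (k + 2) (by omega) (by omega)] at h
      simp only at h ⊢
      linear_combination
        -h + (α ^ (k + 2) + β ^ (k + 2)) * hsum - (α ^ (k + 1) + β ^ (k + 1)) * hprod

section extension

variable {K : Type*} [Field K] [Fintype K] [DecidableEq K] [Algebra (ZMod p) K]

omit [DecidableEq K] in
/-- The additive theorem of Hilbert. -/
theorem trace_eq_zero_iff (w : K) :
    Algebra.trace (ZMod p) K w = 0 ↔ ∃ z : K, z ^ p - z = w := by
  classical
  obtain ⟨φ, hφ⟩ : ∃ φ : K →ₗ[ZMod p] K, φ =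
      (FiniteField.frobeniusAlgHom (ZMod p) K).toLinearMap - LinearMap.id := ⟨_, rfl⟩
  have hφa : ∀ z, φ z = z ^ p - z := fun z => by
    simp [hφ, ZMod.card]
  have hker : LinearMap.ker φ ≤ Submodule.span (ZMod p) {(1 : K)} := by
    intro z hz
    rw [LinearMap.mem_ker, hφa] at hz
    have hsub : (univ.image (algebraMap (ZMod p) K)) ⊆ (X ^ p - X : K[X]).roots.toFinset := by
      intro y hy
      obtain ⟨c, -, rfl⟩ := mem_image.1 hy
      rw [Multiset.mem_toFinset,
        mem_roots (FiniteField.X_pow_card_sub_X_ne_zero K (Fact.out : p.Prime).one_lt)]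
      simp [← map_pow]
    have hcard : (X ^ p - X : K[X]).roots.toFinset.card ≤
        (univ.image (algebraMap (ZMod p) K)).card := by
      rw [card_image_of_injective _ (algebraMap (ZMod p) K).injective, card_univ, ZMod.card]
      exact (Multiset.toFinset_card_le _).trans ((card_roots' _).trans
        (le_of_eq (FiniteField.X_pow_card_sub_X_natDegree_eq K (Fact.out : p.Prime).one_lt)))
    have hz' : z ∈ (X ^ p - X : K[X]).roots.toFinset := by
      rw [Multiset.mem_toFinset,
        mem_roots (FiniteField.X_pow_card_sub_X_ne_zero K (Fact.out : p.Prime).one_lt)]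
      simpa using hz
    rw [← eq_of_subset_of_card_le hsub hcard] at hz'
    obtain ⟨c, -, rfl⟩ := mem_image.1 hz'
    exact Submodule.mem_span_singleton.2 ⟨c, by rw [Algebra.algebraMap_eq_smul_one]⟩
  have hle : LinearMap.range φ ≤ LinearMap.ker (Algebra.trace (ZMod p) K) := by
    rintro _ ⟨z, rfl⟩
    rw [LinearMap.mem_ker, hφa, map_sub, sub_eq_zero]
    have := Algebra.trace_eq_of_algEquiv
      (FiniteField.frobeniusAlgEquivOfAlgebraic (ZMod p) K) z
    simpa [ZMod.card] using this
  have h1 := LinearMap.finrank_range_add_finrank_ker φ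
  have h2 := LinearMap.finrank_range_add_finrank_ker (Algebra.trace (ZMod p) K)
  have h3 : 1 ≤ Module.finrank (ZMod p) (LinearMap.range (Algebra.trace (ZMod p) K)) := by
    rw [Submodule.one_le_finrank_iff, ne_eq, LinearMap.range_eq_bot]
    exact Algebra.trace_ne_zero (ZMod p) K
  have h4 : Module.finrank (ZMod p) (LinearMap.ker φ) ≤ 1 :=
    (Submodule.finrank_mono hker).trans (le_of_eq (finrank_span_singleton one_ne_zero))
  have heq : LinearMap.range φ = LinearMap.ker (Algebra.trace (ZMod p) K) :=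
    Submodule.eq_of_le_of_finrank_le hle (by omega)
  rw [← LinearMap.mem_ker, ← heq]
  simp [LinearMap.mem_range, hφa]

/-- The roots of `a x ^ 2 - u x + b`. -/
theorem card_quadratic_roots (hK : ringChar K ≠ 2) {A B : K} (hA : A ≠ 0) (hB : B ≠ 0) (u : K) :
    (((univ.filter fun x : K => x ≠ 0 ∧ A * x + B * x⁻¹ = u).card : ℤ)) =
      quadraticChar K (u ^ 2 - 4 * A * B) + 1 := by
  rw [← quadraticChar_card_sqrts hK]
  norm_cast
  have h2 : (2 : K) ≠ 0 := Ring.two_ne_zero hK
  refine card_bij' (fun x _ => 2 * A * x - u) (fun y _ => (y + u) / (2 * A)) ?_ ?_ ?_ ?_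
  · intro x hx
    rw [mem_filter] at hx
    obtain ⟨-, hx0, hx⟩ := hx
    rw [Set.mem_toFinset, Set.mem_ofPred_eq, ← hx]
    field_simp
    ring
  · intro y hy
    rw [Set.mem_toFinset, Set.mem_ofPred_eq] at hy
    rw [mem_filter]
    have h4 : (4 : K) = 2 * 2 := by norm_num
    have h0 : (y + u) / (2 * A) ≠ 0 := by
      intro h
      rw [div_eq_zero_iff, or_iff_left (mul_ne_zero h2 hA), add_eq_zero_iff_eq_neg] at h
      rw [h] at hy
      refine mul_ne_zero (mul_ne_zero (mul_ne_zero h2 h2) hA) hB ?_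
      linear_combination hy
    have h1 : y + u ≠ 0 := fun h => h0 (by rw [h, zero_div])
    refine ⟨mem_univ _, h0, ?_⟩
    field_simp
    linear_combination hy
  · intro x _
    field_simp
    ring
  · intro y _
    field_simp
    ring

/-- The sum over all multiples is a hyperelliptic sum. -/
theorem sum_kSum_eq (hp : p ≠ 2) {a b : ZMod p} (ha : a ≠ 0) (hb : b ≠ 0) :
    ∑ t ∈ (univ : Finset (ZMod p)).erase 0, kSum K (t * a) (t * b) =
      1 + ((∑ z : K, quadraticChar K
        (((X ^ p - X) ^ 2 - C (4 * algebraMap _ K a * algebraMap _ K b) : K[X]).eval z) : ℤ) :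
          ℂ) := by
  classical
  have hK : ringChar K ≠ 2 := by
    rw [← Algebra.ringChar_eq (ZMod p) K, ZMod.ringChar_zmod_n]
    exact hp
  obtain ⟨A, hA⟩ : ∃ A, A = algebraMap (ZMod p) K a := ⟨_, rfl⟩
  obtain ⟨B, hB⟩ : ∃ B, B = algebraMap (ZMod p) K b := ⟨_, rfl⟩
  have hA0 : A ≠ 0 := hA ▸ (_root_.map_ne_zero _).2 ha
  have hB0 : B ≠ 0 := hB ▸ (_root_.map_ne_zero _).2 hb
  obtain ⟨w, hw⟩ : ∃ w : K → K, w = fun x => A * x + B * x⁻¹ := ⟨_, rfl⟩
  obtain ⟨U, hU⟩ : ∃ U : Finset K, U = univ.filter fun x : K => x ≠ 0 := ⟨_, rfl⟩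
  -- `∑ t, ψ (t tr w) = #{z | z ^ p - z = w}`
  have hfib : ∀ v : K, (∑ t : ZMod p, (ZMod.stdAddChar (t * Algebra.trace (ZMod p) K v) : ℂ)) =
      ((univ.filter fun z : K => z ^ p - z = v).card : ℂ) := by
    intro v
    rw [AddChar.sum_mulShift _ (ZMod.isPrimitive_stdAddChar p), ZMod.card]
    split_ifs with h
    · obtain ⟨z₀, hz₀⟩ := (trace_eq_zero_iff v).1 h
      have e : (univ.filter fun z : K => z ^ p - z = v) =
          univ.image fun c : ZMod p => z₀ + algebraMap (ZMod p) K c := by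
        have hcp : CharP K p := charP_of_injective_algebraMap' (ZMod p) p
        refine (eq_of_subset_of_card_le ?_ ?_).symm
        · intro z hz
          obtain ⟨c, -, rfl⟩ := mem_image.1 hz
          refine mem_filter.2 ⟨mem_univ _, ?_⟩
          rw [add_pow_char, ← map_pow, ZMod.pow_card, add_sub_add_right_eq_sub, hz₀]
        · rw [card_image_of_injective _ fun c c' h => (algebraMap (ZMod p) K).injective
            (add_left_cancel (h : z₀ + algebraMap (ZMod p) K c = z₀ + algebraMap (ZMod p) K c')),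
            card_univ, ZMod.card]
          have hne : (X ^ p - X - C v : K[X]) ≠ 0 := fun h => by
            have := congrArg (fun g : K[X] => g.coeff p) h
            simp [coeff_X, coeff_C, (Fact.out : p.Prime).ne_one.symm,
              (Fact.out : p.Prime).ne_zero] at this
          refine (card_le_degree_of_subset_roots (p := X ^ p - X - C v) fun z hz => ?_).trans ?_
          · rw [mem_roots hne]
            simp [(mem_filter.1 hz).2]
          · rw [natDegree_sub_C, FiniteField.X_pow_card_sub_X_natDegree_eq K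
              (Fact.out : p.Prime).one_lt]
      rw [e, card_image_of_injective _ fun c c' h => (algebraMap (ZMod p) K).injective
        (add_left_cancel (h : z₀ + algebraMap (ZMod p) K c = z₀ + algebraMap (ZMod p) K c')),
        card_univ, ZMod.card]
    · rw [filter_false_of_mem fun z _ hz => h ((trace_eq_zero_iff v).2 ⟨z, hz⟩), card_empty]
  have hk : ∀ t : ZMod p, kSum K (t * a) (t * b) =
      ∑ x ∈ U, (ZMod.stdAddChar (t * Algebra.trace (ZMod p) K (w x)) : ℂ) := by
    intro t
    rw [kSum, hU]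
    refine sum_congr rfl fun x _ => ?_
    rw [← smul_eq_mul t (Algebra.trace (ZMod p) K (w x)), ← map_smul, Algebra.smul_def, map_mul,
      map_mul, hw, hA, hB, mul_add, mul_assoc, mul_assoc]
  have htot : ∑ t : ZMod p, kSum K (t * a) (t * b) =
      ∑ z : K, ((univ.filter fun x : K => x ≠ 0 ∧ w x = z ^ p - z).card : ℂ) := by
    rw [sum_congr rfl fun t _ => hk t, sum_comm, sum_congr rfl fun x _ => hfib (w x)]
    rw [hU]
    simp only [card_filter, Nat.cast_sum, sum_filter]
    rw [sum_comm]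
    refine sum_congr rfl fun z _ => ?_
    by_cases hz : z = 0 <;> simp [hz, eq_comm]
  have h0 : kSum K ((0 : ZMod p) * a) (0 * b) = (Fintype.card K : ℂ) - 1 := by
    rw [kSum]
    simp [filter_ne', card_erase_of_mem, Nat.cast_sub Fintype.card_pos]
  have hroots : ∀ z : K, ((univ.filter fun x : K => x ≠ 0 ∧ w x = z ^ p - z).card : ℂ) =
      ((quadraticChar K (((X ^ p - X) ^ 2 - C (4 * A * B) : K[X]).eval z) : ℤ) : ℂ) + 1 := by
    intro z
    have h := congrArg (Int.cast : ℤ → ℂ) (card_quadratic_roots hK hA0 hB0 (z ^ p - z))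
    push_cast at h
    rw [hw, h]
    simp
  rw [← add_right_inj (kSum K ((0 : ZMod p) * a) (0 * b)),
    add_sum_erase _ (fun t => kSum K (t * a) (t * b)) (mem_univ _), htot,
    sum_congr rfl fun z _ => hroots z, h0, ← hA, ← hB, sum_add_distrib]
  simp
  ring

theorem norm_sum_kSum_le (hp : p ≠ 2) {a b : ZMod p} (ha : a ≠ 0) (hb : b ≠ 0) :
    ‖∑ t ∈ (univ : Finset (ZMod p)).erase 0, kSum K (t * a) (t * b)‖ ≤
      2 * p * Real.sqrt (Fintype.card K) := by
  have hK : ringChar K ≠ 2 := by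
    rw [← Algebra.ringChar_eq (ZMod p) K, ZMod.ringChar_zmod_n]
    exact hp
  have hcp : CharP K p := charP_of_injective_algebraMap' (ZMod p) p
  obtain ⟨g, hg⟩ : ∃ g : K[X],
      g = (X ^ p - X) ^ 2 - C (4 * algebraMap _ K a * algebraMap _ K b) := ⟨_, rfl⟩
  have hp1 : 1 < p := (Fact.out : p.Prime).one_lt
  have hd : g.natDegree = 2 * p := by
    rw [hg, natDegree_sub_C, natDegree_pow, FiniteField.X_pow_card_sub_X_natDegree_eq K hp1]
  have hc : (4 * algebraMap _ K a * algebraMap _ K b) ≠ 0 := by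
    have h2 : (2 : K) ≠ 0 := Ring.two_ne_zero hK
    rw [show (4 : K) = 2 * 2 by norm_num]
    exact mul_ne_zero (mul_ne_zero (mul_ne_zero h2 h2) ((_root_.map_ne_zero _).2 ha))
      ((_root_.map_ne_zero _).2 hb)
  have hder : derivative g = C (-2) * (X ^ p - X) := by
    rw [hg, derivative_sub, derivative_C, sub_zero, derivative_sq, derivative_sub,
      derivative_X_pow, CharP.cast_eq_zero, C_0, zero_mul, derivative_X, C_neg]
    ring
  have hsq : Squarefree g := by
    refine Separable.squarefree ?_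
    rw [separable_def, hder, isCoprime_mul_unit_left_right
      (isUnit_C.2 (neg_ne_zero.2 (Ring.two_ne_zero hK)).isUnit)]
    refine ⟨-C (4 * algebraMap _ K a * algebraMap _ K b)⁻¹,
      C (4 * algebraMap _ K a * algebraMap _ K b)⁻¹ * (X ^ p - X), ?_⟩
    rw [hg]
    calc _ = C (4 * algebraMap _ K a * algebraMap _ K b)⁻¹ *
          C (4 * algebraMap _ K a * algebraMap _ K b) := by ring
      _ = 1 := by rw [← C_mul, inv_mul_cancel₀ hc, C_1]
  have hw := abs_sum_quadraticChar_le hK hsq (by omega)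
  rw [sum_kSum_eq hp ha hb, ← hg]
  refine (norm_add_le _ _).trans ?_
  rw [norm_one, Complex.norm_intCast, Int.cast_sum]
  have h1 : (1 : ℝ) ≤ Real.sqrt (Fintype.card K) :=
    Real.one_le_sqrt.2 (Nat.one_le_cast.2 Fintype.card_pos)
  rw [hd, Nat.cast_sub (by omega), Nat.cast_mul, Nat.cast_two, Nat.cast_one] at hw
  linarith

end extension

/-- **The reciprocal roots have absolute value `√p`.** -/
theorem exists_roots_norm (hp : p ≠ 2) {a b : ZMod p} (ha : a ≠ 0) (hb : b ≠ 0) :
    ∃ r : ℂ × ℂ, r.1 * r.2 = (p : ℂ) ∧ ‖r.1‖ = Real.sqrt p ∧ ‖r.2‖ = Real.sqrt p ∧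
      r.1 + r.2 = -coeffSum (kl a b) 1 ∧
        ∀ n : ℕ, 1 ≤ n → mulPowSum (kl a b) n = -(r.1 ^ n + r.2 ^ n) := by
  classical
  have hex : ∀ t : ZMod p, ∃ r : ℂ × ℂ, t ≠ 0 → r.1 * r.2 = (p : ℂ) ∧
      r.1 + r.2 = -coeffSum (kl (t * a) (t * b)) 1 ∧
      ∀ n : ℕ, 1 ≤ n → mulPowSum (kl (t * a) (t * b)) n = -(r.1 ^ n + r.2 ^ n) := by
    intro t
    rcases eq_or_ne t 0 with h | h
    · exact ⟨(0, 0), fun h' => absurd h h'⟩
    · obtain ⟨r, hr⟩ := exists_roots (mul_ne_zero h ha) (mul_ne_zero h hb)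
      exact ⟨r, fun _ => hr⟩
  choose r hr using hex
  obtain ⟨s, hs⟩ : ∃ s : Multiset ℂ,
      s = ((univ : Finset (ZMod p)).erase 0).val.bind fun t => {(r t).1, (r t).2} := ⟨_, rfl⟩
  have hbound : ∀ n : ℕ, 1 ≤ n → ‖(s.map (· ^ n)).sum‖ ≤ 2 * p * Real.sqrt p ^ n := by
    intro n hn
    have : NeZero n := ⟨by omega⟩
    let K := FiniteField.Extension (ZMod p) p n
    let _ : Fintype K := Fintype.ofFinite K
    have hcard : Fintype.card K = p ^ n := by
      rw [Fintype.card_eq_nat_card, FiniteField.natCard_extension, Nat.card_eq_fintype_card,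
        ZMod.card]
    have hfin : Module.finrank (ZMod p) K = n := by
      have h := Module.card_eq_pow_finrank (K := ZMod p) (V := K)
      rw [hcard, ZMod.card] at h
      exact (Nat.pow_right_injective (Fact.out : p.Prime).two_le h).symm
    have h := norm_sum_kSum_le (K := K) hp ha hb
    rw [hcard, Nat.cast_pow, Real.sqrt_eq_rpow, ← Real.rpow_natCast, ← Real.rpow_mul
      (Nat.cast_nonneg _), mul_comm (n : ℝ), Real.rpow_mul (Nat.cast_nonneg _), Real.rpow_natCast,
      ← Real.sqrt_eq_rpow] at h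
    refine le_of_eq_of_le ?_ h
    rw [← norm_neg, hs, Multiset.map_bind, Multiset.sum_bind]
    congr 1
    rw [← sum_eq_multiset_sum, ← sum_neg_distrib]
    refine sum_congr rfl fun t ht => ?_
    rw [kSum_eq_mulPowSum, hfin, (hr t (mem_erase.1 ht).1).2.2 n hn]
    simp
  have hsqrt : (0 : ℝ) < Real.sqrt p :=
    Real.sqrt_pos.2 (Nat.cast_pos.2 (Fact.out : p.Prime).pos)
  have h1 : (r 1).1 ∈ s := hs ▸ Multiset.mem_bind.2
    ⟨1, mem_erase.2 ⟨one_ne_zero, mem_univ _⟩, by simp⟩
  have h2 : (r 1).2 ∈ s := hs ▸ Multiset.mem_bind.2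
    ⟨1, mem_erase.2 ⟨one_ne_zero, mem_univ _⟩, by simp⟩
  have e1 := norm_le_of_powerSums hsqrt hbound h1
  have e2 := norm_le_of_powerSums hsqrt hbound h2
  obtain ⟨hprod, hadd, hpow⟩ := hr 1 one_ne_zero
  simp only [one_mul] at hadd hpow
  have e3 : ‖(r 1).1‖ * ‖(r 1).2‖ = Real.sqrt p * Real.sqrt p := by
    rw [← norm_mul, hprod, Complex.norm_natCast, Real.mul_self_sqrt (Nat.cast_nonneg _)]
  refine ⟨r 1, hprod, le_antisymm e1 ?_, le_antisymm e2 ?_, hadd, hpow⟩
  · refine le_of_mul_le_mul_right (e3.ge.trans ?_) hsqrt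
    exact mul_le_mul_of_nonneg_left e2 (norm_nonneg _)
  · refine le_of_mul_le_mul_left (e3.ge.trans ?_) hsqrt
    exact mul_le_mul_of_nonneg_right e1 (norm_nonneg _)

/-- **Weil's bound for Kloosterman sums.** -/
theorem norm_kloosterman_le (hp : p ≠ 2) {a b : ZMod p} (ha : a ≠ 0) (hb : b ≠ 0) :
    ‖∑ x ∈ univ.filter (fun x : ZMod p => x ≠ 0), (ZMod.stdAddChar (a * x + b * x⁻¹) : ℂ)‖ ≤
      2 * Real.sqrt p := by
  obtain ⟨r, -, h1, h2, hadd, -⟩ := exists_roots_norm hp ha hb
  rw [← coeffSum_one, ← norm_neg, ← hadd]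
  linarith [norm_add_le r.1 r.2]

end FA.Kloosterman
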