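import Fermat.Agent.Kloosterman.Weil
import Fermat.Agent.Root.SummaryPolyaVinogradov

/-!
# The distribution of modular inverses

Completion: the solutions of `x y = c` in a box `N₁ × N₂` are `(p - 1) N₁ N₂ / p ^ 2` up to
`4 √p (1 + log p) ^ 2`.
-/

set_option autoImplicit false
set_option linter.unusedSectionVars false

noncomputable section

namespace FA.Kloosterman

open Finset

variable {p : ℕ} [Fact p.Prime]

local notation "ψ" => (ZMod.stdAddChar : AddChar (ZMod p) ℂ)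

/-- The completing sum of the interval. -/
def intervalSum (M : ℤ) (N : ℕ) (h : ZMod p) : ℂ :=
  ∑ i ∈ range N, ψ (h * ((M + i : ℤ) : ZMod p))

theorem norm_stdAddChar (j : ZMod p) : ‖ψ j‖ = 1 := by
  rw [ZMod.stdAddChar_apply]
  exact Circle.norm_coe _

theorem norm_intervalSum_le (M : ℤ) (N : ℕ) {h : ZMod p} (hh : h ≠ 0) :
    ‖intervalSum M N h‖ ≤ 2 / ‖ψ h - 1‖ := by
  have hne : ψ h ≠ 1 := fun e =>
    hh (ZMod.injective_stdAddChar (e.trans (AddChar.map_zero_eq_one _).symm))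
  have e : intervalSum M N h = ψ (h * (M : ZMod p)) * ∑ i ∈ range N, ψ h ^ i := by
    rw [intervalSum, mul_sum]
    refine sum_congr rfl fun i _ => ?_
    rw [Int.cast_add, Int.cast_natCast, mul_add, AddChar.map_add_eq_mul, mul_comm h (i : ZMod p),
      ← nsmul_eq_mul, AddChar.map_nsmul_eq_pow]
  rw [e, norm_mul, norm_stdAddChar, one_mul, geom_sum_eq hne, norm_div]
  gcongr
  exact (norm_sub_le _ _).trans (by rw [norm_pow, norm_stdAddChar, one_pow, norm_one]; norm_num)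

theorem sum_norm_intervalSum_le (M : ℤ) (N : ℕ) :
    ∑ h ∈ (univ : Finset (ZMod p)).erase 0, ‖intervalSum M N h‖ ≤ p * (1 + Real.log p) :=
  (sum_le_sum fun _ hh => norm_intervalSum_le M N (mem_erase.1 hh).1).trans
    FA.OrderTheta.sum_two_div_norm_le

theorem sum_stdAddChar_mul_inv {t : ZMod p} (ht : t ≠ 0) :
    ∑ u ∈ univ.filter (fun u : ZMod p => u ≠ 0), ψ (t * u) = -1 := by
  have h := AddChar.sum_mulShift t (ZMod.isPrimitive_stdAddChar p)
  rw [if_neg ht, ← add_sum_erase _ _ (mem_univ (0 : ZMod p)), zero_mul,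
    AddChar.map_zero_eq_one] at h
  rw [filter_ne', ← sub_eq_zero]
  simp only [mul_comm t]
  push_cast at h
  linear_combination h

/-- The complete sum. -/
def complete (c h k : ZMod p) : ℂ :=
  ∑ u ∈ univ.filter (fun u : ZMod p => u ≠ 0), ψ (-h * u + -(k * c) * u⁻¹)

theorem norm_complete_left {c : ZMod p} {h : ZMod p} (hh : h ≠ 0) : ‖complete c h 0‖ ≤ 1 := by
  rw [complete]
  simp only [zero_mul, neg_zero, add_zero]
  rw [sum_stdAddChar_mul_inv (neg_ne_zero.2 hh), norm_neg, norm_one]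

theorem norm_complete_right {c : ZMod p} (hc : c ≠ 0) {k : ZMod p} (hk : k ≠ 0) :
    ‖complete c 0 k‖ ≤ 1 := by
  rw [complete]
  simp only [neg_zero, zero_mul, zero_add]
  rw [show ∑ u ∈ univ.filter (fun u : ZMod p => u ≠ 0), ψ (-(k * c) * u⁻¹) =
      ∑ u ∈ univ.filter (fun u : ZMod p => u ≠ 0), ψ (-(k * c) * u) from
    sum_nbij' (·⁻¹) (·⁻¹) (fun u hu => mem_filter.2 ⟨mem_univ _, inv_ne_zero (mem_filter.1 hu).2⟩)
      (fun u hu => mem_filter.2 ⟨mem_univ _, inv_ne_zero (mem_filter.1 hu).2⟩)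
      (fun u _ => inv_inv u) (fun u _ => inv_inv u) fun u _ => rfl,
    sum_stdAddChar_mul_inv (neg_ne_zero.2 (mul_ne_zero hk hc)), norm_neg, norm_one]

theorem norm_complete_le (hp : p ≠ 2) {c : ZMod p} (hc : c ≠ 0) {h k : ZMod p} (hh : h ≠ 0)
    (hk : k ≠ 0) : ‖complete c h k‖ ≤ 2 * Real.sqrt p :=
  norm_kloosterman_le hp (neg_ne_zero.2 hh) (neg_ne_zero.2 (mul_ne_zero hk hc))

/-- The number of solutions. -/
def boxCount (c : ZMod p) (M₁ M₂ : ℤ) (N₁ N₂ : ℕ) : ℕ :=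
  ((range N₁ ×ˢ range N₂).filter fun x : ℕ × ℕ =>
    (((M₁ + x.1) * (M₂ + x.2) : ℤ) : ZMod p) = c).card

theorem sq_mul_boxCount {c : ZMod p} (hc : c ≠ 0) (M₁ M₂ : ℤ) (N₁ N₂ : ℕ) :
    (p : ℂ) ^ 2 * boxCount c M₁ M₂ N₁ N₂ =
      ∑ h : ZMod p, ∑ k : ZMod p, intervalSum M₁ N₁ h * intervalSum M₂ N₂ k * complete c h k := by
  classical
  have hind : ∀ z : ZMod p, (∑ h : ZMod p, ψ (h * z)) = if z = 0 then (p : ℂ) else 0 := fun z => by
    rw [AddChar.sum_mulShift _ (ZMod.isPrimitive_stdAddChar p), ZMod.card]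
    split_ifs <;> simp
  have hterm : ∀ i j : ℕ, (p : ℂ) ^ 2 *
      (if (((M₁ + i) * (M₂ + j) : ℤ) : ZMod p) = c then 1 else 0) =
      ∑ u ∈ univ.filter (fun u : ZMod p => u ≠ 0),
        (∑ h : ZMod p, ψ (h * (((M₁ + i : ℤ) : ZMod p) - u))) *
          ∑ k : ZMod p, ψ (k * (((M₂ + j : ℤ) : ZMod p) - c * u⁻¹)) := by
    intro i j
    simp only [hind, sub_eq_zero]
    rcases eq_or_ne ((M₁ + i : ℤ) : ZMod p) 0 with e | e
    · rw [if_neg (by rw [Int.cast_mul, e, zero_mul]; exact hc.symm), mul_zero, eq_comm]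
      exact sum_eq_zero fun u hu => by
        rw [if_neg fun h => (mem_filter.1 hu).2 (h.symm.trans e), zero_mul]
    · symm
      rw [sum_eq_single ((M₁ + i : ℤ) : ZMod p) (fun u _ hu => by
          rw [if_neg (Ne.symm hu), zero_mul])
        (fun h => (h (by simpa using e)).elim), if_pos rfl, Int.cast_mul]
      have hiff : ((M₁ + i : ℤ) : ZMod p) * ((M₂ + j : ℤ) : ZMod p) = c ↔
          ((M₂ + j : ℤ) : ZMod p) = c * ((M₁ + i : ℤ) : ZMod p)⁻¹ := by
        rw [eq_mul_inv_iff_mul_eq₀ e, mul_comm]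
      simp only [hiff]
      split_ifs <;> ring
  rw [boxCount, card_filter, Nat.cast_sum, mul_sum, sum_product]
  simp only [Nat.cast_ite, Nat.cast_one, Nat.cast_zero, hterm]
  simp only [intervalSum, complete, sum_mul, mul_sum]
  -- reorder the five sums
  simp_rw [sum_comm (s := univ.filter fun u : ZMod p => u ≠ 0) (t := (univ : Finset (ZMod p))),
    sum_comm (s := range N₂) (t := (univ : Finset (ZMod p))),
    sum_comm (s := range N₁) (t := (univ : Finset (ZMod p)))]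
  rw [sum_comm]
  refine sum_congr rfl fun h _ => sum_congr rfl fun k _ => ?_
  rw [sum_comm]
  conv_rhs => rw [sum_comm]
  refine sum_congr rfl fun x _ => ?_
  rw [sum_comm]
  refine sum_congr rfl fun u _ => sum_congr rfl fun y _ => ?_
  simp only [← AddChar.map_add_eq_mul]
  congr 1
  ring

theorem abs_boxCount_sub_le (hp : p ≠ 2) {c : ZMod p} (hc : c ≠ 0) (M₁ M₂ : ℤ) {N₁ N₂ : ℕ}
    (h1 : N₁ ≤ p) (h2 : N₂ ≤ p) :
    |(boxCount c M₁ M₂ N₁ N₂ : ℝ) - (p - 1) * N₁ * N₂ / p ^ 2| ≤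
      4 * Real.sqrt p * (1 + Real.log p) ^ 2 := by
  classical
  have hp0 : (0 : ℝ) < p := Nat.cast_pos.2 (Fact.out : p.Prime).pos
  have hp1 : (1 : ℝ) ≤ p := Nat.one_le_cast.2 (Fact.out : p.Prime).one_le
  obtain ⟨L, hL⟩ : ∃ L, L = 1 + Real.log (p : ℝ) := ⟨_, rfl⟩
  rw [← hL]
  have hL1 : 1 ≤ L := hL ▸ le_add_of_nonneg_right (Real.log_nonneg hp1)
  have hsqrt : 1 ≤ Real.sqrt (p : ℝ) := Real.one_le_sqrt.2 hp1
  have e0 : intervalSum M₁ N₁ (0 : ZMod p) = N₁ := by simp [intervalSum]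
  have e0' : intervalSum M₂ N₂ (0 : ZMod p) = N₂ := by simp [intervalSum]
  have e00 : complete c 0 0 = (p : ℂ) - 1 := by
    rw [complete]
    simp [filter_ne', card_erase_of_mem, Nat.cast_sub (Fact.out : p.Prime).one_le]
  have hmain : (p : ℂ) ^ 2 * boxCount c M₁ M₂ N₁ N₂ - ((p : ℂ) - 1) * N₁ * N₂ =
      (∑ k ∈ (univ : Finset (ZMod p)).erase 0,
        intervalSum M₁ N₁ (0 : ZMod p) * intervalSum M₂ N₂ k * complete c 0 k) +
      ∑ h ∈ (univ : Finset (ZMod p)).erase 0,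
        (intervalSum M₁ N₁ h * intervalSum M₂ N₂ (0 : ZMod p) * complete c h 0 +
          ∑ k ∈ (univ : Finset (ZMod p)).erase 0,
            intervalSum M₁ N₁ h * intervalSum M₂ N₂ k * complete c h k) := by
    rw [sq_mul_boxCount hc, ← add_sum_erase _ _ (mem_univ (0 : ZMod p)),
      ← add_sum_erase _ _ (mem_univ (0 : ZMod p)),
      sum_congr rfl fun h _ => (add_sum_erase _ _ (mem_univ (0 : ZMod p))).symm, e0, e0', e00]
    ring
  obtain ⟨A, hA⟩ : ∃ A, A = (p : ℝ) * L := ⟨_, rfl⟩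
  have hA1 : ∑ h ∈ (univ : Finset (ZMod p)).erase 0, ‖intervalSum M₁ N₁ h‖ ≤ A :=
    hA ▸ hL ▸ sum_norm_intervalSum_le M₁ N₁
  have hA2 : ∑ h ∈ (univ : Finset (ZMod p)).erase 0, ‖intervalSum M₂ N₂ h‖ ≤ A :=
    hA ▸ hL ▸ sum_norm_intervalSum_le M₂ N₂
  have hA0 : 0 ≤ A := hA ▸ mul_nonneg hp0.le (by linarith)
  have hnorm : ‖(p : ℂ) ^ 2 * boxCount c M₁ M₂ N₁ N₂ - ((p : ℂ) - 1) * N₁ * N₂‖ ≤
      N₁ * A + (N₂ * A + 2 * Real.sqrt p * (A * A)) := by
    rw [hmain, sum_add_distrib]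
    refine (norm_add_le _ _).trans (add_le_add ?_ ((norm_add_le _ _).trans (add_le_add ?_ ?_)))
    · refine (norm_sum_le _ _).trans (le_trans (sum_le_sum fun k hk => ?_)
        (le_of_eq_of_le (mul_sum _ _ _).symm (mul_le_mul_of_nonneg_left hA2 (Nat.cast_nonneg N₁))))
      rw [norm_mul, norm_mul, e0, Complex.norm_natCast]
      exact mul_le_of_le_one_right (by positivity)
        (norm_complete_right hc (mem_erase.1 hk).1)
    · refine (norm_sum_le _ _).trans (le_trans (sum_le_sum fun h hh => ?_)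
        (le_of_eq_of_le (mul_sum _ _ _).symm (mul_le_mul_of_nonneg_left hA1 (Nat.cast_nonneg N₂))))
      rw [norm_mul, norm_mul, e0', Complex.norm_natCast, mul_comm ‖intervalSum M₁ N₁ h‖]
      exact mul_le_of_le_one_right (by positivity) (norm_complete_left (mem_erase.1 hh).1)
    · refine (norm_sum_le _ _).trans (le_trans (sum_le_sum fun h hh =>
        (norm_sum_le _ _).trans (sum_le_sum fun k hk =>
          show _ ≤ ‖intervalSum M₁ N₁ h‖ * ‖intervalSum M₂ N₂ k‖ * (2 * Real.sqrt p) from ?_)) ?_)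
      · rw [norm_mul, norm_mul]
        exact mul_le_mul_of_nonneg_left
          (norm_complete_le hp hc (mem_erase.1 hh).1 (mem_erase.1 hk).1) (by positivity)
      · simp only [← sum_mul, ← mul_sum]
        rw [mul_comm _ (2 * Real.sqrt (p : ℝ))]
        exact mul_le_mul_of_nonneg_left
          (mul_le_mul hA1 hA2 (sum_nonneg fun _ _ => norm_nonneg _) hA0) (by positivity)
  have e : (p : ℂ) ^ 2 * boxCount c M₁ M₂ N₁ N₂ - ((p : ℂ) - 1) * N₁ * N₂ =
      (((p : ℝ) ^ 2 * ((boxCount c M₁ M₂ N₁ N₂ : ℝ) - (p - 1) * N₁ * N₂ / p ^ 2) : ℝ) : ℂ) := by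
    rw [mul_sub, mul_div_cancel₀ _ (by positivity)]
    push_cast
    ring
  rw [e, Complex.norm_real, Real.norm_eq_abs, abs_mul, abs_of_pos (pow_pos hp0 2)] at hnorm
  have hN : ((N₁ : ℝ) + N₂) * A ≤ 2 * p * A :=
    mul_le_mul_of_nonneg_right
      (by linarith [(Nat.cast_le (α := ℝ)).2 h1, (Nat.cast_le (α := ℝ)).2 h2]) hA0
  have h3 : (p : ℝ) ^ 2 * (2 * L) ≤ (p : ℝ) ^ 2 * (2 * (Real.sqrt p * L ^ 2)) := by
    refine mul_le_mul_of_nonneg_left (mul_le_mul_of_nonneg_left ?_ two_pos.le) (by positivity)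
    rw [sq, ← mul_assoc]
    exact le_mul_of_one_le_left (by linarith) (one_le_mul_of_one_le_of_one_le hsqrt hL1)
  refine le_of_mul_le_mul_left (hnorm.trans ?_) (pow_pos hp0 2)
  rw [hA] at hN ⊢
  linarith

end FA.Kloosterman
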