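import Fermat.Agent.Kloosterman.Newton
import Mathlib.RingTheory.Trace.Basic
import Mathlib.NumberTheory.LegendreSymbol.AddCharacter
import Mathlib.Analysis.SpecialFunctions.Complex.CircleAddChar

/-!
# The L-function of a Kloosterman sum

`∑_g λ g T ^ deg g = 1 + K T + p T ^ 2` for `λ g = ψ (a ∑ α + b ∑ 1 / α)` over the roots of `g`,
and the power sums of `λ` are the Kloosterman sums over the extensions.
-/

set_option autoImplicit false
set_option linter.unusedSectionVars false

noncomputable section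

namespace FA.Kloosterman

open Polynomial Finset FA.HyperellipticWeil

variable {p : ℕ} [Fact p.Prime]

/-- The multiplicative function. -/
def kl (a b : ZMod p) (g : (ZMod p)[X]) : ℂ :=
  if g.coeff 0 = 0 then 0
  else ZMod.stdAddChar (-a * g.nextCoeff - b * (g.coeff 1 / g.coeff 0))

theorem kl_one (a b : ZMod p) : kl a b 1 = 1 := by
  simp [kl, nextCoeff, coeff_one]

theorem kl_mul (a b : ZMod p) (g h : (ZMod p)[X]) (hg : g.Monic) (hh : h.Monic) :
    kl a b (g * h) = kl a b g * kl a b h := by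
  rcases eq_or_ne (g.coeff 0) 0 with e | e
  · simp [kl, mul_coeff_zero, e]
  rcases eq_or_ne (h.coeff 0) 0 with e' | e'
  · simp [kl, mul_coeff_zero, e']
  rw [kl, kl, kl, if_neg e, if_neg e', if_neg (by rw [mul_coeff_zero]; exact mul_ne_zero e e'),
    ← AddChar.map_add_eq_mul, mul_coeff_zero, mul_coeff_one, hg.nextCoeff_mul hh]
  congr 1
  field_simp
  ring

/-- The Kloosterman sum over an extension. -/
def kSum (K : Type*) [Field K] [Fintype K] [DecidableEq K] [Algebra (ZMod p) K] (a b : ZMod p) :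
    ℂ :=
  ∑ x ∈ univ.filter (fun x : K => x ≠ 0),
    ZMod.stdAddChar (Algebra.trace (ZMod p) K (algebraMap _ K a * x + algebraMap _ K b * x⁻¹))

theorem coeffSum_zero (a b : ZMod p) : coeffSum (kl a b) 0 = 1 := by
  rw [coeffSum, monics_zero, sum_singleton, kl_one]

theorem coeffSum_one (a b : ZMod p) : coeffSum (kl a b) 1 =
    ∑ x ∈ univ.filter (fun x : ZMod p => x ≠ 0), ZMod.stdAddChar (a * x + b * x⁻¹) := by
  have h : monics (ZMod p) 1 = univ.image fun r : ZMod p => X + C (-r) := by
    ext g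
    simp only [mem_monics, mem_image, mem_univ, true_and]
    refine ⟨fun hg => ⟨-g.coeff 0, ?_⟩, ?_⟩
    · rw [neg_neg]
      exact (hg.1.eq_X_add_C hg.2).symm
    · rintro ⟨r, rfl⟩
      exact ⟨monic_X_add_C _, natDegree_X_add_C _⟩
  rw [coeffSum, h, sum_image fun x _ y _ e => neg_injective (C_injective
      (add_left_cancel (e : (X + C (-x) : (ZMod p)[X]) = X + C (-y)))),
    sum_filter]
  refine sum_congr rfl fun r _ => ?_
  have hn : (X + C (-r)).nextCoeff = -r := nextCoeff_X_add_C _
  simp only [kl, hn, coeff_add, coeff_X_zero, coeff_C_zero, zero_add, coeff_X_one, coeff_C_succ,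
    add_zero]
  rcases eq_or_ne r 0 with e | e
  · simp [e]
  · rw [if_neg (neg_ne_zero.2 e), if_pos e]
    congr 1
    field_simp
    ring

theorem coeffSum_two {a b : ZMod p} (ha : a ≠ 0) (hb : b ≠ 0) :
    coeffSum (kl a b) 2 = (p : ℂ) := by
  have h : monics (ZMod p) 2 =
      univ.image fun x : ZMod p × ZMod p => X ^ 2 + (C x.2 * X + C x.1) := by
    ext g
    simp only [mem_monics, mem_image, mem_univ, true_and]
    constructor
    · rintro ⟨hg, hd⟩
      refine ⟨(g.coeff 0, g.coeff 1), ?_⟩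
      ext i
      have h2 : g.coeff 2 = 1 := hd ▸ hg.coeff_natDegree
      rcases i with _ | _ | _ | i <;>
        simp [coeff_X_pow, coeff_C, coeff_X, h2, coeff_eq_zero_of_natDegree_lt, hd]
    · rintro ⟨x, rfl⟩
      have hl : (C x.2 * X + C x.1).degree < ((2 : ℕ) : WithBot ℕ) :=
        degree_linear_le.trans_lt (by norm_num)
      exact ⟨monic_X_pow_add hl, natDegree_eq_of_degree_eq_some (by
        rw [degree_add_eq_left_of_degree_lt (by rwa [degree_X_pow]), degree_X_pow])⟩
  have hinj : ∀ x : ZMod p × ZMod p, (X ^ 2 + (C x.2 * X + C x.1)).coeff 0 = x.1 ∧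
      (X ^ 2 + (C x.2 * X + C x.1)).coeff 1 = x.2 ∧
      (X ^ 2 + (C x.2 * X + C x.1)).nextCoeff = x.2 := by
    intro x
    have hl : (C x.2 * X + C x.1).degree < ((2 : ℕ) : WithBot ℕ) :=
      degree_linear_le.trans_lt (by norm_num)
    have hd : (X ^ 2 + (C x.2 * X + C x.1)).natDegree = 2 := natDegree_eq_of_degree_eq_some (by
      rw [degree_add_eq_left_of_degree_lt (by rwa [degree_X_pow]), degree_X_pow])
    refine ⟨by simp, by simp [coeff_X_pow], ?_⟩
    rw [nextCoeff, hd]
    simp [coeff_X_pow]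
  rw [coeffSum, h, sum_image fun x _ y _ e => Prod.ext
    (by rw [← (hinj x).1, e, (hinj y).1]) (by rw [← (hinj x).2.1, e, (hinj y).2.1]),
    Fintype.sum_prod_type]
  have hu : ∀ w : ZMod p, ∑ u : ZMod p, kl a b (X ^ 2 + (C u * X + C w)) =
      if w = -b / a then (p : ℂ) else 0 := by
    intro w
    simp only [kl, (hinj (w, _)).1, (hinj (w, _)).2.1, (hinj (w, _)).2.2]
    rcases eq_or_ne w 0 with e | e
    · rw [if_neg (e ▸ (div_ne_zero (neg_ne_zero.2 hb) ha).symm)]
      exact sum_eq_zero fun u _ => if_pos e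
    · simp only [if_neg e]
      have he : ∀ u : ZMod p, -a * u - b * (u / w) = u * (-a - b / w) := fun u => by
        field_simp
      simp only [he]
      rw [AddChar.sum_mulShift _ (ZMod.isPrimitive_stdAddChar p), ZMod.card]
      have hiff : -a - b / w = 0 ↔ w = -b / a := by
        rw [sub_eq_zero, eq_div_iff e, eq_div_iff ha]
        constructor <;> intro h <;> linear_combination -h
      simp only [hiff]
      split_ifs <;> simp
  rw [sum_congr rfl fun w _ => hu w, sum_ite_eq', if_pos (mem_univ _)]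

theorem coeffSum_of_three_le {a : ZMod p} (ha : a ≠ 0) (b : ZMod p) {d : ℕ} (hd : 3 ≤ d) :
    coeffSum (kl a b) d = 0 := by
  obtain ⟨δ, hδ⟩ : ∃ δ : ZMod p, ZMod.stdAddChar (-a * δ) ≠ (1 : ℂ) :=
    ⟨1, fun h => (mul_ne_zero (neg_ne_zero.2 ha) one_ne_zero) (ZMod.injective_stdAddChar
      (h.trans (AddChar.map_zero_eq_one _).symm))⟩
  have hmem : ∀ (s : ZMod p), ∀ g ∈ monics (ZMod p) d,
      g + C s * X ^ (d - 1) ∈ monics (ZMod p) d := by
    intro s g hg
    rw [mem_monics] at hg ⊢
    have h1 : (C s * X ^ (d - 1)).degree < g.degree := by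
      rw [degree_eq_natDegree hg.1.ne_zero, hg.2]
      exact (degree_C_mul_X_pow_le _ _).trans_lt (Nat.cast_lt.2 (by omega))
    exact ⟨hg.1.add_of_left h1, by rw [natDegree_add_eq_left_of_degree_lt h1, hg.2]⟩
  have key : coeffSum (kl a b) d = ZMod.stdAddChar (-a * δ) * coeffSum (kl a b) d := by
    rw [coeffSum, mul_sum]
    refine (sum_nbij' (fun g => g + C δ * X ^ (d - 1)) (fun g => g + C (-δ) * X ^ (d - 1))
      (hmem δ) (hmem (-δ)) (fun g _ => ?_) (fun g _ => ?_) fun g hg => ?_).symm
    · rw [C_neg, neg_mul, add_neg_cancel_right]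
    · rw [C_neg, neg_mul, neg_add_cancel_right]
    · have hg' := mem_monics.1 (hmem δ g hg)
      rw [mem_monics] at hg
      have e0 : (g + C δ * X ^ (d - 1)).coeff 0 = g.coeff 0 := by
        rw [coeff_add, coeff_C_mul_X_pow, if_neg (by omega), add_zero]
      have e1 : (g + C δ * X ^ (d - 1)).coeff 1 = g.coeff 1 := by
        rw [coeff_add, coeff_C_mul_X_pow, if_neg (by omega), add_zero]
      have en : (g + C δ * X ^ (d - 1)).nextCoeff = g.nextCoeff + δ := by
        rw [nextCoeff, nextCoeff, hg'.2, hg.2, if_neg (by omega), if_neg (by omega), coeff_add,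
          coeff_C_mul_X_pow, if_pos rfl]
      rw [kl, kl, e0, e1, en]
      split_ifs
      · rw [mul_zero]
      · rw [← AddChar.map_add_eq_mul]
        congr 1
        ring
  by_contra h0
  exact hδ (mul_right_cancel₀ h0 ((one_mul _).trans key)).symm

section points

variable {K : Type*} [Field K] [Fintype K] [DecidableEq K] [Algebra (ZMod p) K]

theorem minpoly_inv {x : K} (hx : x ≠ 0) :
    minpoly (ZMod p) x⁻¹ =
      C ((minpoly (ZMod p) x).coeff 0)⁻¹ * (minpoly (ZMod p) x).reverse := by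
  have hint : IsIntegral (ZMod p) x := Algebra.IsIntegral.isIntegral x
  have hint' : IsIntegral (ZMod p) x⁻¹ := Algebra.IsIntegral.isIntegral x⁻¹
  obtain ⟨P, hP⟩ : ∃ P, P = minpoly (ZMod p) x := ⟨_, rfl⟩
  rw [← hP]
  have h0 : P.coeff 0 ≠ 0 := hP ▸ minpoly.coeff_zero_ne_zero hint hx
  have hrd : P.reverse.natDegree = P.natDegree := by
    rw [reverse_natDegree, natTrailingDegree_eq_zero.2 (Or.inr h0), Nat.sub_zero]
  have hm : (C (P.coeff 0)⁻¹ * P.reverse).Monic := by
    rw [Monic, leadingCoeff_mul, leadingCoeff_C, reverse_leadingCoeff, trailingCoeff,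
      natTrailingDegree_eq_zero.2 (Or.inr h0), inv_mul_cancel₀ h0]
  have hz : aeval x⁻¹ (C (P.coeff 0)⁻¹ * P.reverse) = 0 := by
    let _ := invertibleOfNonzero hx
    rw [map_mul, aeval_def x⁻¹ P.reverse, ← invOf_eq_inv x,
      (eval₂_reverse_eq_zero_iff _ x P).2 (hP ▸ minpoly.aeval _ x), mul_zero]
  refine (eq_of_monic_of_dvd_of_natDegree_le (minpoly.monic hint') hm (minpoly.dvd _ _ hz) ?_).symm
  rw [natDegree_C_mul (inv_ne_zero h0), hrd, hP, ← IntermediateField.adjoin.finrank hint,
    ← IntermediateField.adjoin.finrank hint']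
  have e : IntermediateField.adjoin (ZMod p) {x⁻¹} = IntermediateField.adjoin (ZMod p) {x} :=
    le_antisymm (IntermediateField.adjoin_simple_le_iff.2 (inv_mem
      (IntermediateField.mem_adjoin_simple_self _ x))) (IntermediateField.adjoin_simple_le_iff.2 (by
        simpa using inv_mem (IntermediateField.mem_adjoin_simple_self (ZMod p) x⁻¹)))
  rw [e]

theorem stdAddChar_trace_eq (a b : ZMod p) {x : K} (hx : x ≠ 0) :
    (ZMod.stdAddChar
      (Algebra.trace (ZMod p) K (algebraMap _ K a * x + algebraMap _ K b * x⁻¹)) : ℂ) =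
      kl a b (minpoly (ZMod p) x) ^
        (Module.finrank (ZMod p) K / (minpoly (ZMod p) x).natDegree) := by
  have hint : IsIntegral (ZMod p) x := Algebra.IsIntegral.isIntegral x
  have hfin : ∀ y : K, (Module.finrank (IntermediateField.adjoin (ZMod p) {y}) K : ℕ) =
      Module.finrank (ZMod p) K / (minpoly (ZMod p) y).natDegree := fun y => by
    have hy : IsIntegral (ZMod p) y := Algebra.IsIntegral.isIntegral y
    rw [← Module.finrank_mul_finrank (ZMod p) (IntermediateField.adjoin (ZMod p) {y}) K,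
      IntermediateField.adjoin.finrank hy, Nat.mul_div_cancel_left _ (minpoly.natDegree_pos hy)]
  have h0 : (minpoly (ZMod p) x).coeff 0 ≠ 0 := minpoly.coeff_zero_ne_zero hint hx
  have hd : 0 < (minpoly (ZMod p) x).natDegree := minpoly.natDegree_pos hint
  have hrd : (minpoly (ZMod p) x).reverse.natDegree = (minpoly (ZMod p) x).natDegree := by
    rw [reverse_natDegree, natTrailingDegree_eq_zero.2 (Or.inr h0), Nat.sub_zero]
  have hnd : (minpoly (ZMod p) x⁻¹).natDegree = (minpoly (ZMod p) x).natDegree := by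
    rw [minpoly_inv hx, natDegree_C_mul (inv_ne_zero h0), hrd]
  have hnc : (minpoly (ZMod p) x⁻¹).nextCoeff =
      (minpoly (ZMod p) x).coeff 1 / (minpoly (ZMod p) x).coeff 0 := by
    rw [nextCoeff, hnd, if_neg hd.ne', minpoly_inv hx, coeff_C_mul, coeff_reverse,
      revAt_le (by omega), Nat.sub_sub_self hd, inv_mul_eq_div]
  rw [map_add, ← Algebra.smul_def, ← Algebra.smul_def, map_smul, map_smul,
    trace_eq_finrank_mul_minpoly_nextCoeff (ZMod p) x,
    trace_eq_finrank_mul_minpoly_nextCoeff (ZMod p) x⁻¹, hfin, hfin, hnd, hnc, kl, if_neg h0,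
    ← AddChar.map_nsmul_eq_pow]
  congr 1
  simp only [smul_eq_mul, nsmul_eq_mul]
  ring

/-- **The point sums.** -/
theorem kSum_eq_mulPowSum (a b : ZMod p) :
    kSum K a b = mulPowSum (kl a b) (Module.finrank (ZMod p) K) := by
  classical
  have hterm : ∀ x : K, (if x ≠ 0 then (ZMod.stdAddChar (Algebra.trace (ZMod p) K
      (algebraMap _ K a * x + algebraMap _ K b * x⁻¹)) : ℂ) else 0) =
      kl a b (minpoly (ZMod p) x) ^
        (Module.finrank (ZMod p) K / (minpoly (ZMod p) x).natDegree) := by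
    intro x
    rcases eq_or_ne x 0 with rfl | hx
    · rw [if_neg (not_not.2 rfl), minpoly.zero, natDegree_X, Nat.div_one, kl, if_pos coeff_X_zero,
        zero_pow Module.finrank_pos.ne']
    · rw [if_pos hx, stdAddChar_trace_eq a b hx]
  have hmaps : ∀ x ∈ (univ : Finset K), minpoly (ZMod p) x ∈
      (irr (ZMod p) (Module.finrank (ZMod p) K)).filter
        fun P => P.natDegree ∣ Module.finrank (ZMod p) K := fun x _ => by
    have hint : IsIntegral (ZMod p) x := Algebra.IsIntegral.isIntegral x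
    exact mem_filter.2 ⟨mem_irr.2 ⟨minpoly.monic hint, minpoly.irreducible hint,
      Nat.le_of_dvd Module.finrank_pos (minpoly.degree_dvd hint)⟩, minpoly.degree_dvd hint⟩
  rw [kSum, sum_filter, sum_congr rfl fun x _ => hterm x, ← sum_fiberwise_of_maps_to hmaps,
    mulPowSum]
  refine sum_congr rfl fun P hP => ?_
  rw [sum_congr rfl fun x hx => by rw [(mem_filter.1 hx).2], sum_const, nsmul_eq_mul]
  rw [mem_filter, mem_irr] at hP
  rw [card_minpoly_fiber hP.1.1 hP.1.2.1 hP.2]

end points

end FA.Kloosterman
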