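import Fermat.Agent.HyperellipticWeil.Newton

/-!
# Newton's identities for any multiplicative function on monic polynomials
-/

set_option autoImplicit false
set_option linter.unusedSectionVars false

noncomputable section

namespace FA.Kloosterman

open Polynomial Finset UniqueFactorizationMonoid FA.HyperellipticWeil
open scoped Classical

variable {F : Type*} [Field F] [Fintype F] [DecidableEq F] {R : Type*} [CommRing R]

/-- The sum over the monics of degree `d`. -/
def coeffSum (L : F[X] → R) (d : ℕ) : R := ∑ g ∈ monics F d, L g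

/-- The sums of the powers, in terms of the irreducibles. -/
def mulPowSum (L : F[X] → R) (k : ℕ) : R :=
  ∑ P ∈ (irr F k).filter (fun P => P.natDegree ∣ k),
    (P.natDegree : R) * L P ^ (k / P.natDegree)

theorem map_pow_of_mult (L : F[X] → R) (h1 : L 1 = 1)
    (hmul : ∀ g h, g.Monic → h.Monic → L (g * h) = L g * L h) {P : F[X]} (hP : P.Monic) :
    ∀ k : ℕ, L (P ^ k) = L P ^ k
  | 0 => by rw [pow_zero, pow_zero, h1]
  | k + 1 => by rw [pow_succ, hmul _ _ (hP.pow k) hP, map_pow_of_mult L h1 hmul hP k, pow_succ]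

theorem sum_mult_dvd (L : F[X] → R) (h1 : L 1 = 1)
    (hmul : ∀ g h, g.Monic → h.Monic → L (g * h) = L g * L h)
    {P : F[X]} (hP : P.Monic) (j d : ℕ) :
    ∑ g ∈ monics F d, (if P ^ j ∣ g then L g else 0) =
      if j * P.natDegree ≤ d then L P ^ j * coeffSum L (d - j * P.natDegree) else 0 := by
  split_ifs with h
  · rw [coeffSum, mul_sum, ← sum_filter]
    refine (sum_bij' (fun b _ => P ^ j * b) (fun g _ => g /ₘ P ^ j) ?_ ?_ ?_ ?_ ?_).symm
    · intro b hb
      rw [mem_monics] at hb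
      refine mem_filter.2 ⟨mem_monics.2 ⟨(hP.pow j).mul hb.1, ?_⟩, dvd_mul_right _ _⟩
      rw [(hP.pow j).natDegree_mul hb.1, hP.natDegree_pow, hb.2]
      omega
    · intro g hg
      rw [mem_filter, mem_monics] at hg
      obtain ⟨⟨hgm, rfl⟩, b, rfl⟩ := hg
      have hb : b.Monic := (hP.pow j).of_mul_monic_left hgm
      rw [mul_divByMonic_cancel_left _ (hP.pow j), mem_monics, (hP.pow j).natDegree_mul hb,
        hP.natDegree_pow, Nat.add_sub_cancel_left]
      exact ⟨hb, rfl⟩
    · exact fun b _ => mul_divByMonic_cancel_left _ (hP.pow j)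
    · intro g hg
      obtain ⟨b, rfl⟩ := (mem_filter.1 hg).2
      rw [mul_divByMonic_cancel_left _ (hP.pow j)]
    · intro b hb
      rw [hmul _ _ (hP.pow j) (mem_monics.1 hb).1, map_pow_of_mult L h1 hmul hP]
  · refine sum_eq_zero fun g hg => if_neg fun hd => h ?_
    rw [mem_monics] at hg
    have := natDegree_le_of_dvd hd hg.1.ne_zero
    rwa [hP.natDegree_pow, hg.2] at this

/-- **Newton's identities.** -/
theorem newton_mult (L : F[X] → R) (h1 : L 1 = 1)
    (hmul : ∀ g h, g.Monic → h.Monic → L (g * h) = L g * L h) (d : ℕ) :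
    (d : R) * coeffSum L d = ∑ k ∈ Icc 1 d, mulPowSum L k * coeffSum L (d - k) := by
  have h0 : (d : R) * coeffSum L d = ∑ P ∈ irr F d, ∑ j ∈ Icc 1 d,
      if j * P.natDegree ≤ d then
        (P.natDegree : R) * (L P ^ j * coeffSum L (d - j * P.natDegree)) else 0 := by
    rw [coeffSum, mul_sum, sum_congr rfl fun g hg => by
      rw [show (d : R) = ((d : ℤ) : R) by simp,
        natDegree_eq_sum_dvd (mem_monics.1 hg).1 (mem_monics.1 hg).2, Int.cast_sum, sum_mul],
      sum_comm]
    refine sum_congr rfl fun P hP => ?_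
    simp only [Int.cast_sum, sum_mul, Int.cast_ite, Int.cast_zero, Int.cast_natCast]
    rw [sum_comm]
    refine sum_congr rfl fun j _ => ?_
    rw [← mul_ite_zero, ← sum_mult_dvd L h1 hmul (mem_irr.1 hP).1, mul_sum]
    exact sum_congr rfl fun g _ => by split_ifs <;> simp
  rw [h0]
  simp only [mulPowSum, sum_mul]
  rw [← sum_product', ← sum_filter, sum_sigma']
  refine sum_nbij' (fun x => ⟨x.2 * x.1.natDegree, x.1⟩) (fun y => (y.2, y.1 / y.2.natDegree))
    ?_ ?_ ?_ ?_ ?_
  · intro x hx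
    simp only [mem_filter, mem_product, mem_Icc, mem_sigma] at hx ⊢
    obtain ⟨⟨hP, hj, -⟩, hle⟩ := hx
    rw [mem_irr] at hP
    have hpos : 1 ≤ x.2 * x.1.natDegree := Nat.mul_pos hj hP.2.1.natDegree_pos
    exact ⟨⟨hpos, hle⟩, mem_irr.2 ⟨hP.1, hP.2.1, Nat.le_mul_of_pos_left _ hj⟩, dvd_mul_left _ _⟩
  · intro y hy
    simp only [mem_filter, mem_product, mem_Icc, mem_sigma] at hy ⊢
    obtain ⟨⟨hk, hkd⟩, hP, hdvd⟩ := hy
    rw [mem_irr] at hP
    refine ⟨⟨mem_irr.2 ⟨hP.1, hP.2.1, hP.2.2.trans hkd⟩,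
      Nat.div_pos hP.2.2 hP.2.1.natDegree_pos, (Nat.div_le_self _ _).trans hkd⟩, ?_⟩
    rwa [Nat.div_mul_cancel hdvd]
  · intro x hx
    simp only [mem_filter, mem_product] at hx
    simp [Nat.mul_div_cancel _ (mem_irr.1 hx.1.1).2.1.natDegree_pos]
  · intro y hy
    simp only [mem_filter, mem_sigma] at hy
    obtain ⟨k, P⟩ := y
    simp [Nat.div_mul_cancel hy.2.2]
  · intro x hx
    simp only [mem_filter, mem_product] at hx
    rw [Nat.mul_div_cancel _ (mem_irr.1 hx.1.1).2.1.natDegree_pos]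
    ring

end FA.Kloosterman
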